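import Fermat.Statements.S02
-- import your own Fermat.Agent.* helpers here

set_option autoImplicit false
open FreyPackage

namespace Fermat.Agent.S02

/-- Final step: `b` even, `a` odd, coprime. -/
theorem step3 (a b c : ℤ) (ha : a ≠ 0) (hb : b ≠ 0) (hc : c ≠ 0) (p : ℕ) (pp : p.Prime)
    (hp5 : 5 ≤ p) (H : a ^ p + b ^ p = c ^ p) (hab : gcd a b = 1) (hb2 : (2 : ℤ) ∣ b)
    (ha2 : ¬ (2 : ℤ) ∣ a) : Nonempty FreyPackage := by
  have hodd : Odd p := pp.odd_of_ne_two (by omega)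
  have hb2' : (b : ZMod 2) = 0 := (ZMod.intCast_zmod_eq_zero_iff_dvd b 2).2 hb2
  have h4 : a % 4 = 1 ∨ a % 4 = 3 := by omega
  rcases h4 with h4 | h4
  · -- negate everything
    refine ⟨⟨-a, -b, -c, neg_ne_zero.2 ha, neg_ne_zero.2 hb, neg_ne_zero.2 hc, p, pp, hp5, ?_, ?_,
      ?_, ?_⟩⟩
    · rw [hodd.neg_pow, hodd.neg_pow, hodd.neg_pow, ← H]; ring
    · rw [gcd_neg, neg_gcd]; exact hab
    · have : ((-a : ℤ) : ZMod 4) = ((3 : ℤ) : ZMod 4) := by
        rw [ZMod.intCast_eq_intCast_iff_dvd_sub]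
        push_cast
        omega
      rw [this]; norm_cast
    · push_cast; rw [hb2']; simp
  · refine ⟨⟨a, b, c, ha, hb, hc, p, pp, hp5, H, hab, ?_, hb2'⟩⟩
    have : ((a : ℤ) : ZMod 4) = ((3 : ℤ) : ZMod 4) := by
      rw [ZMod.intCast_eq_intCast_iff_dvd_sub]
      push_cast
      omega
    rw [this]; norm_cast

/-- Coprime case. -/
theorem step2 (a b c : ℤ) (ha : a ≠ 0) (hb : b ≠ 0) (hc : c ≠ 0) (p : ℕ) (pp : p.Prime)
    (hp5 : 5 ≤ p) (H : a ^ p + b ^ p = c ^ p) (hab : gcd a b = 1) : Nonempty FreyPackage := by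
  have hodd : Odd p := pp.odd_of_ne_two (by omega)
  have hp0 : 0 < p := by omega
  by_cases hb2 : (2 : ℤ) ∣ b
  · have ha2 : ¬ (2 : ℤ) ∣ a := by
      intro ha2
      have := dvd_gcd ha2 hb2
      rw [hab] at this
      omega
    exact step3 a b c ha hb hc p pp hp5 H hab hb2 ha2
  · by_cases ha2 : (2 : ℤ) ∣ a
    · exact step3 b a c hb ha hc p pp hp5 (by rw [add_comm]; exact H) (by rw [gcd_comm]; exact hab)
        ha2 hb2
    · -- both odd, so `c` is even
      have hc2 : (2 : ℤ) ∣ c := by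
        have h1 : Odd a := by rw [← Int.not_even_iff_odd, even_iff_two_dvd]; exact ha2
        have h2 : Odd b := by rw [← Int.not_even_iff_odd, even_iff_two_dvd]; exact hb2
        have h3 : Even (c ^ p) := by rw [← H]; exact (h1.pow).add_odd (h2.pow)
        have h4 : Even c := (Int.even_pow.1 h3).1
        exact even_iff_two_dvd.1 h4
      have hac : gcd a c = 1 := by rw [← gcdab_eq_gcdac hp0 H, hab]
      refine step3 a (-c) (-b) ha (neg_ne_zero.2 hc) (neg_ne_zero.2 hb) p pp hp5 ?_ ?_ ?_ ha2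
      · rw [hodd.neg_pow, hodd.neg_pow, ← H]; ring
      · rw [gcd_neg]; exact hac
      · exact (dvd_neg).2 hc2

theorem result (a b c : ℤ) (ha : a ≠ 0) (hb : b ≠ 0) (hc : c ≠ 0) (p : ℕ) (pp : p.Prime) (hp5 : 5 ≤ p) (H : a ^ p + b ^ p = c ^ p) : Nonempty FreyPackage := by
  have hp0 : p ≠ 0 := by omega
  obtain ⟨a', b', ha', hb', hcop⟩ : ∃ a' b' : ℤ, a = a' * gcd a b ∧ b = b' * gcd a b ∧
      IsUnit (gcd a' b') := by
    obtain ⟨a', b', h1, h2, h3⟩ := extract_gcd a b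
    exact ⟨a', b', by rw [mul_comm]; exact h1, by rw [mul_comm]; exact h2, h3⟩
  set d := gcd a b with hd
  have hd0 : d ≠ 0 := by
    intro h0
    rw [h0, mul_zero] at ha'
    exact ha ha'
  have hdc : d ∣ c := by
    rw [← Int.pow_dvd_pow_iff hp0, ← H]
    apply dvd_add <;> rw [Int.pow_dvd_pow_iff hp0]
    · exact gcd_dvd_left a b
    · exact gcd_dvd_right a b
  obtain ⟨c', hc'⟩ := hdc
  have ha0 : a' ≠ 0 := by rintro rfl; apply ha; rw [ha']; simp
  have hb0 : b' ≠ 0 := by rintro rfl; apply hb; rw [hb']; simp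
  have hc0 : c' ≠ 0 := by rintro rfl; apply hc; rw [hc']; simp
  have H' : a' ^ p + b' ^ p = c' ^ p := by
    have hdp : d ^ p ≠ 0 := pow_ne_zero _ hd0
    apply mul_right_cancel₀ hdp
    calc (a' ^ p + b' ^ p) * d ^ p = (a' * d) ^ p + (b' * d) ^ p := by ring
      _ = a ^ p + b ^ p := by rw [← ha', ← hb']
      _ = c ^ p := H
      _ = (d * c') ^ p := by rw [← hc']
      _ = c' ^ p * d ^ p := by ring
  have hcop' : gcd a' b' = 1 := by
    have h1 : normalize (gcd a' b') = gcd a' b' := normalize_gcd a' b'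
    rw [← h1]
    exact normalize_eq_one.2 hcop
  exact step2 a' b' c' ha0 hb0 hc0 p pp hp5 H' hcop'

end Fermat.Agent.S02
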