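-- Statement S07 (row 7): every weight-2 cusp form of level Gamma0(2) is zero.
import Fermat.Statements.S07
import Fermat.Prelude.Thm_ModularForm_sturm_bound_Gamma0
import Fermat.Prelude.Thm_CongruenceSubgroup_one_mem_strictPeriods_Gamma0

set_option autoImplicit false
open WeierstrassCurve WeierstrassCurve.Affine WeierstrassCurve.Affine.Point
open CuspForm ModularFormClass UpperHalfPlane
open ModularForm

namespace Fermat.Agent.S07

open CongruenceSubgroup Matrix.SpecialLinearGroup in
open scoped MatrixGroups in
lemma index_Gamma0_two_le : (Gamma0 2).index ≤ 4 := by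
  let φ : SL(2,ℤ) →* SL(2, ZMod 2) := Matrix.SpecialLinearGroup.map (Int.castRingHom (ZMod 2))
  let _ : MulAction SL(2,ℤ) (Fin 2 → ZMod 2) := MulAction.compHom (Fin 2 → ZMod 2) φ
  let v : Fin 2 → ZMod 2 := ![1, 0]
  have h : Gamma0 2 = MulAction.stabilizer SL(2,ℤ) v := by
    ext g
    rw [Gamma0_mem, MulAction.mem_stabilizer_iff]
    have hsm : g • v = ![(g 0 0 : ZMod 2), (g 1 0 : ZMod 2)] := by
      change (φ g).1 • v = _
      ext i
      fin_cases i <;> simp [φ, v, Matrix.smul_eq_mulVec, Matrix.mulVec, dotProduct]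
    rw [hsm]
    have hdet : ((g 0 0 : ℤ) : ZMod 2) * (g 1 1 : ZMod 2)
        - (g 0 1 : ZMod 2) * (g 1 0 : ZMod 2) = 1 := by
      have := g.2
      rw [Matrix.det_fin_two] at this
      exact_mod_cast congrArg (Int.cast : ℤ → ZMod 2) this
    clear hsm
    constructor
    · intro h0
      rw [h0] at hdet ⊢
      generalize ((g 0 0 : ℤ) : ZMod 2) = a at *
      generalize ((g 1 1 : ℤ) : ZMod 2) = d at *
      generalize ((g 0 1 : ℤ) : ZMod 2) = b at *
      revert a b d
      decide
    · intro h0
      have := congrFun h0 1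
      simpa [v] using this
  rw [h, MulAction.index_stabilizer]
  calc (MulAction.orbit SL(2,ℤ) v).ncard ≤ Nat.card (Fin 2 → ZMod 2) := Set.ncard_le_card _
    _ = 4 := by simp

theorem result (f : CuspForm (CongruenceSubgroup.Gamma0 2) 2) : f = 0 := by
  let F : ModularForm (CongruenceSubgroup.Gamma0 2) 2 :=
    { toSlashInvariantForm := f.toSlashInvariantForm
      holo' := f.holo'
      bdd_at_cusps' := fun hc g hg => (f.zero_at_cusps' hc g hg).boundedAtFilter }
  have hF : F = 0 := by
    apply ModularForm.sturm_bound_Gamma0 2 F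
    intro n hn
    have h4 := index_Gamma0_two_le
    have hn0 : n = 0 := by
      have : ((2 : ℤ) * ((CongruenceSubgroup.Gamma0 2).index : ℤ)).toNat / 12 = 0 := by
        omega
      omega
    subst hn0
    exact CuspFormClass.qExpansion_coeff_zero f one_pos
      (CongruenceSubgroup.one_mem_strictPeriods_Gamma0 2)
  ext z
  exact congrArg (fun G : ModularForm (CongruenceSubgroup.Gamma0 2) 2 => G z) hF

end Fermat.Agent.S07
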