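import Fermat.Statements.S10
import Fermat.Agent.Kummer.Main
import Fermat.Agent.Kummer.PID7
import Fermat.Agent.Kummer.PID13

set_option autoImplicit false
open WeierstrassCurve WeierstrassCurve.Affine WeierstrassCurve.Affine.Point
open CuspForm ModularFormClass UpperHalfPlane
open FreyPackage

namespace Fermat.Agent.S10

theorem result (P : FreyPackage) (hp : P.p = 5 ∨ P.p = 7 ∨ P.p = 13) : ¬ HasGaloisStableCofixedLine (K := AlgebraicClosure ℚ) ℚ P.freyCurve P.p := by
  exfalso
  have hab : IsCoprime P.a P.b := by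
    have h := P.hgcdab
    rw [Int.isCoprime_iff_gcd_eq_one]
    have h2 : ((Int.gcd P.a P.b : ℕ) : ℤ) = 1 := h
    exact_mod_cast h2
  have hpid : IsPrincipalIdealRing (NumberField.RingOfIntegers (CyclotomicField P.p ℚ)) := by
    rcases hp with h | h | h <;> rw [h]
    · have : IsCyclotomicExtension {5} ℚ (CyclotomicField 5 ℚ) :=
        CyclotomicField.isCyclotomicExtension 5 ℚ
      exact IsCyclotomicExtension.Rat.five_pid _
    · have : IsCyclotomicExtension {7} ℚ (CyclotomicField 7 ℚ) :=
        CyclotomicField.isCyclotomicExtension 7 ℚ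
      exact Fermat.Agent.Kummer.seven_pid _
    · have : IsCyclotomicExtension {13} ℚ (CyclotomicField 13 ℚ) :=
        CyclotomicField.isCyclotomicExtension 13 ℚ
      exact Fermat.Agent.Kummer.thirteen_pid _
  exact Fermat.Agent.Kummer.flt_small (p := P.p) (by rcases hp with h | h | h <;> simp [h]) hpid P.ha0 P.hb0 P.hc0 hab P.hFLT

end Fermat.Agent.S10
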