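import Fermat.Statements.S11
import Fermat.Agent.Kummer.Main
import Fermat.Agent.Kummer.PID11

set_option autoImplicit false
open WeierstrassCurve WeierstrassCurve.Affine WeierstrassCurve.Affine.Point
open CuspForm ModularFormClass UpperHalfPlane
open FreyPackage

namespace Fermat.Agent.S11

theorem result (P : FreyPackage) (hp : P.p = 11) : ¬ HasGaloisStableCofixedLine (K := AlgebraicClosure ℚ) ℚ P.freyCurve P.p := by
  exfalso
  have hab : IsCoprime P.a P.b := by
    have h := P.hgcdab
    rw [Int.isCoprime_iff_gcd_eq_one]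
    have h2 : ((Int.gcd P.a P.b : ℕ) : ℤ) = 1 := h
    exact_mod_cast h2
  have hpid : IsPrincipalIdealRing (NumberField.RingOfIntegers (CyclotomicField P.p ℚ)) := by
    rw [hp]
    have : IsCyclotomicExtension {11} ℚ (CyclotomicField 11 ℚ) :=
      CyclotomicField.isCyclotomicExtension 11 ℚ
    exact Fermat.Agent.Kummer.eleven_pid _
  exact Fermat.Agent.Kummer.flt_small (p := P.p) (by simp [hp]) hpid P.ha0 P.hb0 P.hc0 hab P.hFLT

end Fermat.Agent.S11
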