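import Mathlib
import Fermat.Prelude.Def_ModularCurve_GenusNumerics
import Fermat.Agent.S20.Count
import Fermat.Agent.S20.CombQuot
import Fermat.Agent.S20.CombFixed
import Fermat.Agent.S20.CombCusps

set_option autoImplicit false

namespace Fermat.Agent.S20

theorem result (N : ℕ) [NeZero N] :
    (Module.finrank ℂ (CuspForm (CongruenceSubgroup.Gamma0 N) 2) : ℚ) = ModularCurve.genusFormula N := by
  have h := twelve_mul_finrank N
  rw [numCusps, card_quot, card_fixed_S, card_fixed_ST, card_orbits_T] at h
  have h' : 12 * (Module.finrank ℂ (CuspForm (CongruenceSubgroup.Gamma0 N) 2) : ℚ)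
      = 12 + (ModularCurve.dedekindPsi N : ℚ) - 3 * (ModularCurve.nuTwo N : ℚ)
        - 4 * (ModularCurve.nuThree N : ℚ) - 6 * (ModularCurve.cuspCount N : ℚ) := by
    exact_mod_cast h
  rw [ModularCurve.genusFormula]
  linarith

end Fermat.Agent.S20
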