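import Fermat.Statements.S16
import Fermat.Agent.S16.Upper
import Fermat.Agent.S16.UpperWrap
import Fermat.Agent.S16.Small
import Fermat.Agent.S16.Lower

set_option autoImplicit false
open ModularCurve CuspForm
open ModularCurve

namespace Fermat.Agent.S16

theorem result
    (p : ℕ) [Fact p.Prime] :
    Nat.card (↥(heckeLatticeAlgebra p ∅) ⧸
        Ideal.map ((latticeRestrictHom p ∅).toRingHom.comp (heckeEvalForms p 2))
          (eisensteinIdeal p)) =
      eisensteinNumerator p := by
  refine card_eq_of p _ ?_ (lower p)
  rcases lt_or_ge p 5 with hp | hp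
  · exact small_case p hp
  · exact exists_poly_of_upper p _ fun f a hf M hM => upper hp f hf hM

end Fermat.Agent.S16
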