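-- Statement S22: the Hecke algebra acting on cusp forms is a finite `ℤ`-module.
-- Proof via the Eichler period lattice (see `Fermat/Agent/S22/*.lean`).
import Fermat.Statements.S22
import Fermat.Agent.S22.Separation

set_option autoImplicit false
open CuspForm

namespace Fermat.Agent.S22

/-- weights `≥ 2`: embed the Hecke algebra into a finite power of the period lattice. -/
theorem finite_of_two_le (N : ℕ) [NeZero N] (m : ℕ) (S : Set ℕ) :
    Module.Finite ℤ (CuspForm.heckeAlgebra N ((m : ℤ) + 2) S) := by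
  have : Module.Finite ℤ (Lat N m) := Module.Finite.iff_fg.mpr Lat_fg
  obtain ⟨s, hs⟩ := Lat_fg (N := N) (m := m)
  have hmem : ∀ i : s, (i : CuspForm (CongruenceSubgroup.Gamma0 N) ((m : ℤ) + 2) →ₗ[ℂ] ℂ)
      ∈ Lat N m := fun i => hs ▸ Submodule.subset_span i.2
  let Φ : CuspForm.heckeAlgebra N ((m : ℤ) + 2) S →ₗ[ℤ] (s → Lat N m) :=
    { toFun := fun t i =>
        ⟨(i : CuspForm (CongruenceSubgroup.Gamma0 N) ((m : ℤ) + 2) →ₗ[ℂ] ℂ) ∘ₗ
          (t : Module.End ℂ (CuspForm (CongruenceSubgroup.Gamma0 N) ((m : ℤ) + 2))),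
          comp_mem_Lat_of_mem_heckeAlgebra t.2 (hmem i)⟩
      map_add' := by
        intro a b
        funext i
        apply Subtype.ext
        simp [LinearMap.comp_add]
      map_smul' := by
        intro n a
        funext i
        apply Subtype.ext
        change _ ∘ₗ ((n • a : CuspForm.heckeAlgebra N ((m : ℤ) + 2) S) :
          Module.End ℂ (CuspForm (CongruenceSubgroup.Gamma0 N) ((m : ℤ) + 2))) = n • (_ ∘ₗ _)
        ext f
        simp }
  apply Module.Finite.of_injective Φ
  rw [injective_iff_map_eq_zero]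
  intro t ht
  apply Subtype.ext
  have h1 : ∀ i : s, (i : CuspForm (CongruenceSubgroup.Gamma0 N) ((m : ℤ) + 2) →ₗ[ℂ] ℂ) ∘ₗ
      (t : Module.End ℂ (CuspForm (CongruenceSubgroup.Gamma0 N) ((m : ℤ) + 2))) = 0 := by
    intro i
    have := congrArg Subtype.val (congrFun ht i)
    exact this
  have h2 : ∀ l ∈ Lat N m, l ∘ₗ
      (t : Module.End ℂ (CuspForm (CongruenceSubgroup.Gamma0 N) ((m : ℤ) + 2))) = 0 := by
    intro l hl
    rw [← hs] at hl
    induction hl using Submodule.span_induction with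
    | mem l hl => exact h1 ⟨l, hl⟩
    | zero => simp
    | add a b _ _ ha hb => rw [LinearMap.add_comp, ha, hb, add_zero]
    | smul n a _ ha => rw [LinearMap.smul_comp, ha, smul_zero]
  ext1 f
  apply eq_zero_of_forall_Lat
  intro l hl
  exact LinearMap.congr_fun (h2 l hl) f

/-- if there are no nonzero cusp forms, the statement is trivial. -/
theorem finite_of_forall_eq_zero (N : ℕ) [NeZero N] (k : ℤ) (S : Set ℕ)
    (h : ∀ f : CuspForm (CongruenceSubgroup.Gamma0 N) k, f = 0) :
    Module.Finite ℤ (CuspForm.heckeAlgebra N k S) := by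
  have : Subsingleton (CuspForm (CongruenceSubgroup.Gamma0 N) k) :=
    ⟨fun a b => (h a).trans (h b).symm⟩
  have : Subsingleton (Module.End ℂ (CuspForm (CongruenceSubgroup.Gamma0 N) k)) :=
    ⟨fun a b => LinearMap.ext fun f => Subsingleton.elim _ _⟩
  have : Subsingleton (CuspForm.heckeAlgebra N k S) :=
    ⟨fun a b => Subtype.ext (Subsingleton.elim _ _)⟩
  infer_instance

/-- a cusp form viewed as a modular form. -/
noncomputable def toMF {N : ℕ} {k : ℤ} (f : CuspForm (CongruenceSubgroup.Gamma0 N) k) :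
    ModularForm (CongruenceSubgroup.Gamma0 N) k where
  toSlashInvariantForm := f.toSlashInvariantForm
  holo' := f.holo'
  bdd_at_cusps' := fun hc g hg => (f.zero_at_cusps' hc g hg).isBoundedAtImInfty

theorem eq_zero_of_toMF {N : ℕ} {k : ℤ} (f : CuspForm (CongruenceSubgroup.Gamma0 N) k)
    (h : toMF f = 0) : f = 0 := by
  ext z
  exact congrArg (fun F : ModularForm (CongruenceSubgroup.Gamma0 N) k => F z) h

theorem eq_zero_of_nonpos (N : ℕ) [NeZero N] {k : ℤ} (hk : k ≤ 0)
    (f : CuspForm (CongruenceSubgroup.Gamma0 N) k) : f = 0 := by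
  apply eq_zero_of_toMF
  apply ModularForm.sturm_bound_Gamma0 N
  intro n hn
  have h1 : (k * ((CongruenceSubgroup.Gamma0 N).index : ℤ)).toNat = 0 := by
    apply Int.toNat_of_nonpos
    exact mul_nonpos_of_nonpos_of_nonneg hk (by positivity)
  rw [h1] at hn
  have hn0 : n = 0 := by omega
  subst hn0
  have hg := good_cuspForm f
  have h2 : (UpperHalfPlane.qExpansion 1 (f : UpperHalfPlane → ℂ)).coeff 0
      = UpperHalfPlane.valueAtInfty (f : UpperHalfPlane → ℂ) :=
    UpperHalfPlane.qExpansion_coeff_zero one_pos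
      (UpperHalfPlane.analyticAt_cuspFunction_zero one_pos hg.per hg.hol
        hg.zero.isBoundedAtImInfty) hg.per
  rw [hg.zero.valueAtInfty_eq_zero] at h2
  exact h2

theorem eq_zero_of_odd (N : ℕ) [NeZero N] {k : ℤ} (hk : Odd k)
    (f : CuspForm (CongruenceSubgroup.Gamma0 N) k) : f = 0 := by
  apply eq_zero_of_toMF
  apply ModularForm.eq_zero_of_neg_one_mem _ hk
  refine ⟨-1, ?_, by ext; simp⟩
  simp [CongruenceSubgroup.Gamma0_mem]

theorem result (N : ℕ) [NeZero N] (k : ℤ) (S : Set ℕ) :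
    Module.Finite ℤ (CuspForm.heckeAlgebra N k S) := by
  rcases le_or_gt 2 k with hk | hk
  · obtain ⟨m, rfl⟩ : ∃ m : ℕ, k = (m : ℤ) + 2 := ⟨(k - 2).toNat, by omega⟩
    exact finite_of_two_le N m S
  · apply finite_of_forall_eq_zero
    rcases le_or_gt k 0 with h0 | h0
    · exact eq_zero_of_nonpos N h0
    · have : k = 1 := by omega
      subst this
      exact eq_zero_of_odd N odd_one

end Fermat.Agent.S22
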