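import Fermat.Statements.S49
import Fermat.Prelude.Def_CuspForm_HeckeLocal
import Fermat.Prelude.Thm_ModularFormClass_qCoeff_heckeT
import Fermat.Prelude.Thm_ModularFormClass_qCoeff_heckeU
import Fermat.Agent.S49.Abstract
import Fermat.Agent.S49.Seq

set_option autoImplicit false
set_option linter.style.haveILetI false
open CuspForm EisensteinWeightOne CongruenceSubgroup ModularFormClass

namespace Fermat.Agent.S49

open P2MW.S_CuspForm_intLattice_fg.W3WsD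

theorem qCoeff_csmul {N : ℕ} {k : ℤ} (c : ℂ) (f : CuspForm (Gamma0 N) k) (n : ℕ) :
    qCoeff ⇑(c • f) n = c * qCoeff ⇑f n := by
  have h1 : ⇑(c • f) = c • ⇑f := by
    ext z
    simp
  simp only [qCoeff, h1]
  rw [ModularForm.qExpansion_smul one_pos (hΓ N) c f]
  simp

theorem eq_zero_of_qCoeff {N : ℕ} [NeZero N] {k : ℤ} (f : CuspForm (Gamma0 N) k)
    (h : ∀ n, qCoeff ⇑f n = 0) : f = 0 := by
  apply (injective_iff_map_eq_zero _).mp (trunc_injective N k) f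
  funext i
  simp [trunc, h]

noncomputable def truncC (N : ℕ) (k : ℤ) :
    CuspForm (Gamma0 N) k →ₗ[ℂ] (Fin (sturmB N k + 1) → ℂ) where
  toFun f i := qCoeff ⇑f i
  map_add' f g := by
    funext i
    exact qCoeff_add f g i
  map_smul' c f := by
    funext i
    simp only [Pi.smul_apply, RingHom.id_apply, smul_eq_mul]
    rw [qCoeff_csmul]

theorem finiteDimensional_cuspForm (N : ℕ) [NeZero N] (k : ℤ) :
    FiniteDimensional ℂ (CuspForm (Gamma0 N) k) := by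
  apply FiniteDimensional.of_injective (truncC N k)
  intro f g hfg
  exact trunc_injective N k hfg

theorem hasIntegralStructure_of_basis {N : ℕ} (h : CuspForm.HasIntegralBasis N) :
    CuspForm.HasIntegralStructure N 2 := by
  unfold CuspForm.HasIntegralStructure
  rw [eq_top_iff, ← h]
  apply Submodule.span_mono
  intro f hf
  apply Submodule.subset_span
  intro n
  obtain ⟨m, hm⟩ := Subring.mem_bot.mp (hf n)
  exact ⟨m, hm.symm⟩

theorem moduleFinite_hecke {N : ℕ} [NeZero N] (h : CuspForm.HasIntegralStructure N 2) :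
    Module.Finite ℤ (heckeAlgebra N 2 ∅) := by
  exact Module.Finite.of_injective (latticeRestrictHom N ∅).toLinearMap
    (latticeRestrictHom_bijective N ∅ h).1

theorem exists_three_smul {N : ℕ} (F : CuspForm (Gamma0 N) 2)
    (hF : ∀ n, ∃ m : ℤ, qCoeff ⇑F n = 3 * (m : ℂ)) :
    ∃ g ∈ intLattice N 2, F = (3 : ℤ) • g := by
  refine ⟨(1 / 3 : ℂ) • F, ?_, ?_⟩
  · rw [mem_intLattice_iff]
    intro n
    obtain ⟨m, hm⟩ := hF n
    refine ⟨m, ?_⟩
    rw [qCoeff_csmul, hm]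
    ring
  · rw [← Int.cast_smul_eq_zsmul ℂ, smul_smul]
    norm_num

theorem e1Chi3In_eq : ∃ G : PowerSeries ℤ, e1Chi3In ℤ = 1 + PowerSeries.C (3 : ℤ) * G := by
  refine ⟨PowerSeries.mk fun n => if n = 0 then 0 else 2 * sigmaChi n, ?_⟩
  ext n
  simp only [e1Chi3In, e1Chi3, PowerSeries.coeff_map, PowerSeries.coeff_mk, map_add,
    PowerSeries.coeff_one, PowerSeries.coeff_C_mul]
  by_cases hn : n = 0
  · simp [hn]
  · simp [hn]; ring

theorem bridge_cong (a : ℕ → ℤ) (n : ℕ) : (3 : ℤ) ∣ (bridgeProduct a).coeff n - a n := by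
  obtain ⟨G, hG⟩ := e1Chi3In_eq
  unfold bridgeProduct
  rw [hG, mul_add, mul_one, map_add, PowerSeries.coeff_mk, ← mul_assoc,
    mul_comm (PowerSeries.mk a), mul_assoc, PowerSeries.coeff_C_mul]
  exact ⟨(PowerSeries.coeff n) (PowerSeries.mk a * G), by ring⟩

theorem chi_cong (ℓ : ℕ) : (3 : ℤ) ∣ (ℓ : ℤ) - chiNegThree ℓ := by
  unfold chiNegThree
  split_ifs <;> omega

theorem qCoeff_T {N : ℕ} [NeZero N] {ℓ : ℕ} (hℓ : ℓ.Prime) (hℓN : ¬ ℓ ∣ N)
    (v : CuspForm (Gamma0 N) 2) (n : ℕ) :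
    qCoeff ⇑(heckeTLin 2 hℓ hℓN v) n =
      qCoeff ⇑v (n * ℓ) + (if ℓ ∣ n then (ℓ : ℂ) * qCoeff ⇑v (n / ℓ) else 0) := by
  rw [coe_heckeTLin_apply, ModularFormClass.qCoeff_heckeT v (hΓ N) hℓ.ne_zero n,
    ModularForm.coeffHeckeT_apply]
  norm_num

theorem qCoeff_U {N : ℕ} [NeZero N] {ℓ : ℕ} (hℓ : ℓ.Prime) (hℓN : ℓ ∣ N)
    (v : CuspForm (Gamma0 N) 2) (n : ℕ) :
    qCoeff ⇑(heckeULin 2 hℓN v) n = qCoeff ⇑v (n * ℓ) := by
  rw [coe_heckeULin_apply, ModularFormClass.qCoeff_heckeU v (hΓ N) hℓ.ne_zero n,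
    ModularForm.coeffHeckeU_apply]

theorem result
    {N : ℕ} [NeZero N] (h : CuspForm.HasIntegralBasis N) {a : ℕ → ℤ}
    (heig : FormalHecke.IsEigensystem
      (fun ℓ => if ℓ ∣ N then 0 else ((chiNegThree ℓ : ℤ) : ℤ)) a)
    (hreal : CuspForm.IsLatticeRealized N a) :
    ∃ (f : CuspForm (Gamma0 N) 2) (_ : f.IsNormalizedEigenform)
      (𝔪' : Ideal (integralClosure ℤ ℂ)), 𝔪'.IsMaximal ∧
      ((3 : ℕ) : integralClosure ℤ ℂ) ∈ 𝔪' ∧
      ∀ (ℓ : ℕ) (_ : ℓ.Prime) (_ : ¬ ℓ ∣ N),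
        ∃ c : integralClosure ℤ ℂ, (c : ℂ) = ModularFormClass.qCoeff f ℓ ∧
          c - (a ℓ : integralClosure ℤ ℂ) ∈ 𝔪' := by
  classical
  obtain ⟨f₀, hf₀, af, haf, hcong⟩ := hreal
  have hint := hasIntegralStructure_of_basis h
  haveI := finiteDimensional_cuspForm N 2
  haveI := moduleFinite_hecke hint
  haveI : Algebra.IsIntegral ℤ (heckeAlgebra N 2 ∅) := Algebra.IsIntegral.of_finite ℤ _
  have hcong' : ∀ n, (3 : ℤ) ∣ af n - a n := by
    intro n
    have := dvd_add (hcong n) (bridge_cong a n)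
    simpa using this
  have hf₀L : f₀ ∈ intLattice N 2 := by
    rw [mem_intLattice_iff]
    intro n
    exact ⟨af n, (haf n).symm⟩
  -- the ideal
  let I₀ : Ideal (heckeAlgebra N 2 ∅) :=
    { carrier := {T | ∃ g ∈ intLattice N 2,
        (T : Module.End ℂ (CuspForm (Gamma0 N) 2)) f₀ = (3 : ℤ) • g}
      zero_mem' := ⟨0, zero_mem _, by simp⟩
      add_mem' := by
        rintro T T' ⟨g, hg, h1⟩ ⟨g', hg', h2⟩
        refine ⟨g + g', add_mem hg hg', ?_⟩
        rw [Subalgebra.coe_add, LinearMap.add_apply, h1, h2, smul_add]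
      smul_mem' := by
        rintro S T ⟨g, hg, h1⟩
        refine ⟨(S : Module.End ℂ (CuspForm (Gamma0 N) 2)) g,
          mem_intLattice_of_mem_heckeAlgebra one_le_two S.2 hg, ?_⟩
        rw [smul_eq_mul, Subalgebra.coe_mul, Module.End.mul_apply, h1, map_zsmul] }
  have hI₀ : I₀ ≠ ⊤ := by
    intro htop
    have h1 : (1 : heckeAlgebra N 2 ∅) ∈ I₀ := by rw [htop]; trivial
    obtain ⟨g, hg, hg1⟩ := h1
    rw [mem_intLattice_iff] at hg
    obtain ⟨m, hm⟩ := hg 1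
    have h2 : qCoeff ⇑f₀ 1 = 3 * (m : ℂ) := by
      have : f₀ = (3 : ℤ) • g := by simpa using hg1
      rw [this, qCoeff_zsmul, hm]; norm_num
    rw [← haf 1] at h2
    have h3 : af 1 = 3 * m := by exact_mod_cast h2
    have h4 := hcong' 1
    rw [heig.1, h3] at h4
    omega
  obtain ⟨v, lam, 𝔪', hv, hmax, heigv, hI⟩ := abstract_lift
    (heckeAlgebra N 2 ∅).val.toRingHom Subtype.val_injective I₀ hI₀
  have heigv' : ∀ T : heckeAlgebra N 2 ∅,
      (T : Module.End ℂ (CuspForm (Gamma0 N) 2)) v = ((lam T : integralClosure ℤ ℂ) : ℂ) • v :=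
    heigv
  set b : ℕ → ℂ := fun n => qCoeff ⇑v n with hb
  let e : ℕ → ℂ := fun ℓ => if ℓ ∣ N then 0 else (ℓ : ℂ)
  have hrel : ∀ ℓ : ℕ, ℓ.Prime → ∃ μ : integralClosure ℤ ℂ,
      (∀ n, b (n * ℓ) + (if ℓ ∣ n then e ℓ * b (n / ℓ) else 0) = (μ : ℂ) * b n) ∧
      (¬ ℓ ∣ N → μ - (a ℓ : integralClosure ℤ ℂ) ∈ 𝔪') := by
    intro ℓ hℓ
    by_cases hℓN : ℓ ∣ N
    · refine ⟨lam (heckeAlgebra.U hℓ hℓN (Set.notMem_empty _)), fun n => ?_, fun hc => absurd hℓN hc⟩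
      have h1 := heigv' (heckeAlgebra.U hℓ hℓN (Set.notMem_empty _))
      rw [heckeAlgebra.coe_U] at h1
      have h2 := congrArg (fun F : CuspForm (Gamma0 N) 2 => qCoeff ⇑F n) h1
      simp only [qCoeff_U hℓ hℓN, qCoeff_csmul] at h2
      simp only [e, if_pos hℓN, zero_mul, ite_self, add_zero]
      exact h2
    · refine ⟨lam (heckeAlgebra.T hℓ hℓN (Set.notMem_empty _)), fun n => ?_, fun _ => ?_⟩
      · have h1 := heigv' (heckeAlgebra.T hℓ hℓN (Set.notMem_empty _))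
        rw [heckeAlgebra.coe_T] at h1
        have h2 := congrArg (fun F : CuspForm (Gamma0 N) 2 => qCoeff ⇑F n) h1
        simp only [qCoeff_T hℓ hℓN, qCoeff_csmul] at h2
        simp only [e, if_neg hℓN]
        exact h2
      · have hmem : heckeAlgebra.T hℓ hℓN (Set.notMem_empty _) - (a ℓ : heckeAlgebra N 2 ∅) ∈ I₀ := by
          show ∃ g ∈ intLattice N 2, _ = (3 : ℤ) • g
          apply exists_three_smul
          intro n
          have hF : ((heckeAlgebra.T hℓ hℓN (Set.notMem_empty _) - (a ℓ : heckeAlgebra N 2 ∅) :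
              heckeAlgebra N 2 ∅) : Module.End ℂ (CuspForm (Gamma0 N) 2)) f₀
              = heckeTLin 2 hℓ hℓN f₀ + (-(a ℓ)) • f₀ := by
            rw [Subalgebra.coe_sub, heckeAlgebra.coe_T, LinearMap.sub_apply, neg_smul,
              ← sub_eq_add_neg]
            congr 1
          rw [hF, qCoeff_add, qCoeff_zsmul, qCoeff_T hℓ hℓN, ← haf, ← haf, ← haf]
          obtain ⟨k1, hk1⟩ := hcong' (n * ℓ)
          obtain ⟨k2, hk2⟩ := hcong' (n / ℓ)
          obtain ⟨k3, hk3⟩ := hcong' n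
          obtain ⟨k4, hk4⟩ := chi_cong ℓ
          have hE := heig.2 ℓ hℓ n
          simp only [if_neg hℓN] at hE
          rw [mul_comm ℓ n] at hE
          by_cases hdn : ℓ ∣ n
          · rw [if_pos hdn] at hE ⊢
            refine ⟨k1 + ℓ * k2 + k4 * a (n / ℓ) - a ℓ * k3, ?_⟩
            have : af (n * ℓ) + (ℓ : ℤ) * af (n / ℓ) + -(a ℓ) * af n
                = 3 * (k1 + ℓ * k2 + k4 * a (n / ℓ) - a ℓ * k3) := by
              linear_combination hk1 + (ℓ : ℤ) * hk2 - a ℓ * hk3 + a (n / ℓ) * hk4 + hE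
            exact_mod_cast this
          · rw [if_neg hdn] at hE ⊢
            refine ⟨k1 - a ℓ * k3, ?_⟩
            have : af (n * ℓ) + 0 + -(a ℓ) * af n = 3 * (k1 - a ℓ * k3) := by
              linear_combination hk1 - a ℓ * hk3 + hE
            exact_mod_cast this
        have := hI _ hmem
        rwa [map_sub, map_intCast] at this
  choose μ hμ hμ' using hrel
  let μ' : ℕ → ℂ := fun ℓ => if hℓ : ℓ.Prime then ((μ ℓ hℓ : integralClosure ℤ ℂ) : ℂ) else 0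
  have hrel' : ∀ ℓ : ℕ, ℓ.Prime → ∀ n : ℕ,
      b (n * ℓ) + (if ℓ ∣ n then e ℓ * b (n / ℓ) else 0) = μ' ℓ * b n := by
    intro ℓ hℓ n
    simp only [μ', dif_pos hℓ]
    exact hμ ℓ hℓ n
  have hb0 : b 0 = 0 := CuspFormClass.qExpansion_coeff_zero v one_pos (hΓ N)
  have hb1 : b 1 ≠ 0 := by
    intro h1
    exact hv (eq_zero_of_qCoeff v (seq_zero b e μ' hb0 h1 hrel'))
  set c : ℕ → ℂ := fun n => qCoeff ⇑((b 1)⁻¹ • v) n with hc
  have hcb : ∀ n, c n = (b 1)⁻¹ * b n := fun n => qCoeff_csmul _ _ _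
  have hc1 : c 1 = 1 := by rw [hcb]; exact inv_mul_cancel₀ hb1
  have hcrel : ∀ ℓ : ℕ, ℓ.Prime → ∀ n : ℕ,
      c (n * ℓ) + (if ℓ ∣ n then e ℓ * c (n / ℓ) else 0) = μ' ℓ * c n := by
    intro ℓ hℓ n
    have := hrel' ℓ hℓ n
    rw [hcb, hcb, hcb]
    split_ifs at this ⊢ with hd
    · linear_combination (b 1)⁻¹ * this
    · linear_combination (b 1)⁻¹ * this
  have hcμ : ∀ ℓ : ℕ, ℓ.Prime → c ℓ = μ' ℓ := by
    intro ℓ hℓ
    have := hcrel ℓ hℓ 1
    rw [if_neg (fun hd => hℓ.one_lt.ne' (Nat.dvd_one.mp hd)), add_zero, one_mul, hc1, mul_one]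
      at this
    exact this
  have hcrel' : ∀ ℓ : ℕ, ℓ.Prime → ∀ n : ℕ,
      c (n * ℓ) + (if ℓ ∣ n then e ℓ * c (n / ℓ) else 0) = c ℓ * c n := by
    intro ℓ hℓ n
    rw [hcμ ℓ hℓ]; exact hcrel ℓ hℓ n
  have hpow : ∀ p r : ℕ, p.Prime → c (p ^ (r + 2)) = c p * c (p ^ (r + 1)) - e p * c (p ^ r) := by
    intro p r hp
    have := hcrel' p hp (p ^ (r + 1))
    rw [if_pos (dvd_pow_self p (Nat.succ_ne_zero r)), ← pow_succ,
      show p ^ (r + 1) / p = p ^ r by rw [pow_succ]; exact Nat.mul_div_cancel _ hp.pos] at this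
    linear_combination this
  refine ⟨(b 1)⁻¹ • v, ⟨hc1, seq_mult c e hc1 hcrel', ?_, ?_⟩, 𝔪', hmax, ?_, ?_⟩
  · intro p r hp hpN
    have := hpow p r hp
    simp only [e, if_neg hpN] at this
    exact this
  · intro p r hp hpN
    have := hpow p r hp
    simp only [e, if_pos hpN, zero_mul, sub_zero] at this
    exact this
  · have hmem : ((3 : ℕ) : heckeAlgebra N 2 ∅) ∈ I₀ := by
      refine ⟨f₀, hf₀L, ?_⟩
      have h3 : (((3 : ℕ) : heckeAlgebra N 2 ∅) : Module.End ℂ (CuspForm (Gamma0 N) 2))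
          = ((3 : ℕ) : Module.End ℂ (CuspForm (Gamma0 N) 2)) := rfl
      rw [h3, Module.End.natCast_apply, show (3 : ℤ) = ((3 : ℕ) : ℤ) from rfl, natCast_zsmul]
    have := hI _ hmem
    rwa [map_natCast] at this
  · intro ℓ hℓ hℓN
    refine ⟨μ ℓ hℓ, ?_, hμ' ℓ hℓ hℓN⟩
    have := hcμ ℓ hℓ
    simp only [μ', dif_pos hℓ] at this
    exact this.symm

end Fermat.Agent.S49
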