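-- Statement S21: Eichler–Shimura for weight 2 and level `Γ₀(N)`.
-- Injectivity: maximum principle (S21/Injective); range: dimension count
-- (S20 = dimension formula, S21/Bound = upper bound for parabolic cohomology).
import Fermat.Statements.S21
import Fermat.Agent.S21.Bound
import Fermat.Agent.S20

set_option autoImplicit false
open ModularCurve

namespace Fermat.Agent.S21

theorem result (N : ℕ) [NeZero N] :
    Function.Injective (ModularCurve.periodHomPair N)
      ∧ LinearMap.range (ModularCurve.periodHomPair N)
          = ModularCurve.Period.parabolicHoms ℂ (CongruenceSubgroup.Gamma0 N) ℂ :=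
  eichlerShimura_of N (Fermat.Agent.S20.card_orbits_T N) (Fermat.Agent.S20.result N)

end Fermat.Agent.S21
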