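import Fermat.Statements.S24
import Fermat.Agent.S24.UnifDisc
import Fermat.Agent.S24.UnifCusp
import Fermat.Agent.S24.UnifDeg
import Fermat.Agent.S24.Canon
import Fermat.Agent.S24.LocalCount
import Fermat.Agent.S20

set_option autoImplicit false
open ModularCurve

namespace Fermat.Agent.S24

open AlgebraicCurve IntermediateField

section General

variable {K F : Type*} [Field K] [Field F] [Algebra K F]

theorem final_adjoin_sub_eq (x : F) (c : K) : K⟮x - algebraMap K F c⟯ = K⟮x⟯ := by
  apply le_antisymm
  · rw [adjoin_simple_le_iff]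
    exact sub_mem (mem_adjoin_simple_self K x) (IntermediateField.algebraMap_mem _ c)
  · rw [adjoin_simple_le_iff]
    have h := add_mem (mem_adjoin_simple_self K (x - algebraMap K F c))
      (IntermediateField.algebraMap_mem K⟮x - algebraMap K F c⟯ c)
    rwa [sub_add_cancel] at h

theorem final_adjoin_inv_eq (x : F) : K⟮x⁻¹⟯ = K⟮x⟯ := by
  apply le_antisymm
  · rw [adjoin_simple_le_iff]
    exact inv_mem (mem_adjoin_simple_self K x)
  · rw [adjoin_simple_le_iff]
    have h := inv_mem (mem_adjoin_simple_self K x⁻¹)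
    rwa [inv_inv] at h

theorem final_transcendental_sub {x : F} (hx : Transcendental K x) (c : K) :
    Transcendental K (x - algebraMap K F c) := by
  intro h
  apply hx
  have : x = (x - algebraMap K F c) + algebraMap K F c := by ring
  rw [this]
  exact h.add (isAlgebraic_algebraMap c)

theorem final_transcendental_inv {x : F} (hx : Transcendental K x) :
    Transcendental K x⁻¹ := by
  intro h
  apply hx
  have : x = (x⁻¹)⁻¹ := (inv_inv x).symm
  rw [this]
  exact h.inv

variable [IsAlgClosed K] [CharZero K]

theorem final_hasParam {Q : Type*} [Fintype Q] {y : F} {e : ℕ} {π : Equiv.Perm Q}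
    (U : LocalUnif K F Q y e π) (hy : Transcendental K y)
    [FiniteDimensional K⟮y⟯ F] (hn : Module.finrank K⟮y⟯ F = Fintype.card Q)
    (v : Place K F) (hv : 0 < v.ord y) : HasParam v := by
  obtain ⟨q, m, hm, h⟩ := U.exists_param hy hn v hv
  exact ⟨U.Θ q, m, hm, fun a => ⟨U.ι a, U.const q a⟩, h⟩

theorem final_ord_eq_one {Q : Type*} [Fintype Q] {y : F} {π : Equiv.Perm Q}
    (U : LocalUnif K F Q y 1 π) (hy : Transcendental K y)
    [FiniteDimensional K⟮y⟯ F] (hn : Module.finrank K⟮y⟯ F = Fintype.card Q)
    (v : Place K F) (hv : 0 < v.ord y) : v.ord y = 1 := by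
  obtain ⟨q, m, hm, h⟩ := U.exists_param hy hn v hv
  have h1 := h y (ne_zero_of_ord_ne_zero v hv.ne')
  rw [U.order_y q] at h1
  have h2 : v.ord y ∣ 1 := ⟨m, by rw [mul_comm]; exact_mod_cast h1⟩
  exact Int.eq_one_of_dvd_one hv.le h2

end General

theorem result (N : ℕ) [NeZero N]
    [AlgebraicCurve.HasCanonicalDivisor (K := AlgebraicClosure ℚ) (F := ↥(ModularCurve.modularFunctionFieldBar N))] :
    (AlgebraicCurve.genus (AlgebraicClosure ℚ) ↥(ModularCurve.modularFunctionFieldBar N) : ℚ)
      = ModularCurve.genusFormula N := by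
  classical
  have hx : Transcendental Kb (jF N) := transcendental_jF N
  have : FiniteDimensional Kb⟮jF N⟯ (FF N) := finiteDimensional_FF N
  have FDc : ∀ c : Kb, FiniteDimensional Kb⟮jF N - algebraMap Kb (FF N) c⟯ (FF N) := by
    intro c
    rw [final_adjoin_sub_eq]
    infer_instance
  have hnc : ∀ c : Kb, Module.finrank Kb⟮jF N - algebraMap Kb (FF N) c⟯ (FF N)
      = Fintype.card (Q N) := by
    intro c
    rw [final_adjoin_sub_eq]
    exact finrank_FF N
  have FDi : FiniteDimensional Kb⟮(jF N)⁻¹⟯ (FF N) := by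
    rw [final_adjoin_inv_eq]
    infer_instance
  have hni : Module.finrank Kb⟮(jF N)⁻¹⟯ (FF N) = Fintype.card (Q N) := by
    rw [final_adjoin_inv_eq]
    exact finrank_FF N
  obtain ⟨U0⟩ := exists_localUnif_zero N
  obtain ⟨U1⟩ := exists_localUnif_1728 N
  obtain ⟨Ui⟩ := exists_localUnif_infty N
  have hparam : ∀ v : Place Kb (FF N), HasParam v := by
    intro v
    by_cases hv : 0 ≤ v.ord (jF N)
    · obtain ⟨c, hc⟩ := exists_center (jF N) hx v hv
      have := FDc c
      by_cases h0 : c = 0
      · subst h0
        exact final_hasParam U0 (final_transcendental_sub hx _) (hnc _) v hc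
      by_cases h1 : c = 1728
      · subst h1
        exact final_hasParam U1 (final_transcendental_sub hx _) (hnc _) v hc
      obtain ⟨U⟩ := exists_localUnif_generic N c h0 h1
      exact final_hasParam U (final_transcendental_sub hx _) (hnc _) v hc
    · have hv' : 0 < v.ord (jF N)⁻¹ := by
        rw [Place.ord_inv]
        omega
      exact final_hasParam Ui (final_transcendental_inv hx) hni v hv'
  have hS : ∀ c : Kb, c ∉ ({0, 1728} : Finset Kb) → ∀ v : Place Kb (FF N),
      0 < v.ord (jF N - algebraMap Kb (FF N) c) → v.ord (jF N - algebraMap Kb (FF N) c) = 1 := by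
    intro c hc v hv
    simp only [Finset.mem_insert, Finset.mem_singleton, not_or] at hc
    obtain ⟨U⟩ := exists_localUnif_generic N c hc.1 hc.2
    have := FDc c
    exact final_ord_eq_one U (final_transcendental_sub hx _) (hnc _) v hv
  have hex : ∃ ω : Ω[FF N⁄Kb], ω ≠ 0 := exists_differential_ne_zero (jF N) hx hparam
  have hdeg := degree_canonicalDivisorOf (jF N) hx hparam {0, 1728} hS hex.choose_spec
  have hne : (0 : Kb) ≠ 1728 := by norm_num
  rw [Finset.sum_pair hne, finrank_FF, card_Q] at hdeg
  have r0 := have := FDc 0; U0.card_places (final_transcendental_sub hx _) (hnc _)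
  have r1 := have := FDc 1728; U1.card_places (final_transcendental_sub hx _) (hnc _)
  have ri := Ui.card_places (final_transcendental_inv hx) hni
  have ri' : Nat.card {v : Place Kb (FF N) // v.ord (jF N) < 0}
      = Nat.card {v : Place Kb (FF N) // 0 < v.ord (jF N)⁻¹} := by
    refine Nat.card_congr (Equiv.subtypeEquivRight fun v => ?_)
    rw [Place.ord_inv]
    omega
  rw [r0, r1, ri', ri, card_orbits_toPerm_T] at hdeg
  have e2 := two_mul_card_orbits_S N
  have e3 := three_mul_card_orbits_ST N
  have hS20 := Fermat.Agent.S20.result N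
  unfold AlgebraicCurve.genus
  rw [dif_pos hex]
  set D := Divisor.degree (canonicalDivisorOf hex.choose_spec) with hD
  set a := Nat.card (MulAction.orbitRel.Quotient
      (Subgroup.zpowers (MulAction.toPerm ModularGroup.S : Equiv.Perm (Q N))) (Q N))
  set b := Nat.card (MulAction.orbitRel.Quotient
      (Subgroup.zpowers (MulAction.toPerm (ModularGroup.S * ModularGroup.T) : Equiv.Perm (Q N)))
        (Q N))
  set g := Module.finrank ℂ (CuspForm (CongruenceSubgroup.Gamma0 N) 2)
  have hDg : D + 2 = 2 * (g : ℤ) := by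
    have h1 : ((D + 2 : ℤ) : ℚ) = 2 * (g : ℚ) := by
      rw [hS20, hdeg]
      unfold ModularCurve.genusFormula
      have e2' : (2 : ℚ) * a = dedekindPsi N + nuTwo N := by exact_mod_cast e2
      have e3' : (3 : ℚ) * b = dedekindPsi N + 2 * nuThree N := by exact_mod_cast e3
      push_cast
      linarith
    exact_mod_cast h1
  rw [hDg, ← hS20]
  have : (2 * (g : ℤ)).toNat / 2 = g := by
    have : (2 * (g : ℤ)).toNat = 2 * g := by omega
    rw [this]
    omega
  rw [this]

end Fermat.Agent.S24
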