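import Fermat.Statements.S28
import Fermat.Agent.S28.QEP
import Fermat.Agent.S28.Scheme

set_option autoImplicit false
open AlgebraicGeometry CategoryTheory CategoryTheory.Limits ModularCurve ModularCurve.IgusaScheme
noncomputable section
set_option autoImplicit false
open ModularCurve ModularCurve.IgusaScheme

namespace Fermat.Agent.S28

set_option maxHeartbeats 4000000 in
set_option synthInstance.maxHeartbeats 400000 in
theorem result
    (N : ℕ) [NeZero N] (ℓ : ℕ) [Fact ℓ.Prime] (hℓN : ¬ ℓ ∣ N)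
    (K : Type) [Field K] [CharP K ℓ] [Algebra ↥(GaloisRep.ratLocalizedAt ℓ) K] :
    IsIntegral ↑(pullback (igusaTo N ℓ)
      (Spec.map (CommRingCat.ofHom (algebraMap ↥(GaloisRep.ratLocalizedAt ℓ) K)))) := by
  have hMid := isIntegralSeries_of_mem_chartAlgMid N ℓ hℓN
  refine isIntegral_pullback_of_isDomain N ℓ K ?_ ?_ ?_
  · exact isDomain_tensor N ℓ K (chartAlgFin N ℓ)
      (fun x hx => hMid x (chartAlg_mono N ℓ (sFin_subset N) hx)) (qep_fin N ℓ hℓN)
  · exact isDomain_tensor N ℓ K (chartAlgInf N ℓ)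
      (fun x hx => hMid x (chartAlg_mono N ℓ (sInf_subset N) hx)) (qep_inf N ℓ hℓN)
  · exact nontrivial_tensor N ℓ K (chartAlgMid N ℓ) hMid

end Fermat.Agent.S28
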