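-- Statement S51: for a semistable integral Weierstrass curve, the mod 3 or the mod 5 representation is irreducible.
-- Proof: two stable lines give a rational point on X0(15): y^2 = X (X - 9) (X - 25); 2-descent; endgame at the prime 5.
import Fermat.Statements.S51
import Fermat.Agent.S51.Main

set_option autoImplicit false
open WeierstrassCurve WeierstrassCurve.Affine WeierstrassCurve.Affine.Point
open CuspForm ModularFormClass UpperHalfPlane
open WeierstrassCurve

namespace Fermat.Agent.S51

theorem isGalois_algebraicClosure_rat' : IsGalois ℚ (AlgebraicClosure ℚ) := by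
  have h : (DivisionRing.toRatAlgebra : Algebra ℚ (AlgebraicClosure ℚ)) =
      AlgebraicClosure.instAlgebra ℚ := Subsingleton.elim _ _
  rw [h]
  infer_instance

theorem result (W : WeierstrassCurve ℤ) (hΔ : W.Δ ≠ 0) (hW : W.IsSemistableModel) : W.ModRepIsIrreducible 3 ∨ W.ModRepIsIrreducible 5 := by
  have := isGalois_algebraicClosure_rat'
  exact three_or_five W hΔ (fun h => by exact_mod_cast hW 5 (by norm_num) (by exact_mod_cast h))

end Fermat.Agent.S51
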