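import Fermat.Statements.S53
import Fermat.Agent.S53.Setup
import Fermat.Agent.S53.NormalForm
import Fermat.Agent.S53.FinitePhi
import Fermat.Agent.S53.GoodProrep
import Fermat.Agent.S53.Burnside

set_option autoImplicit false
set_option autoImplicit false
open GaloisRep

namespace Fermat.Agent.S53

open IsLocalRing in
theorem result
    (𝒪 : Type) [CommRing 𝒪] [IsDomain 𝒪] [IsDiscreteValuationRing 𝒪]
    [IsAdicComplete (IsLocalRing.maximalIdeal 𝒪) 𝒪] [Finite (IsLocalRing.ResidueField 𝒪)]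
    (ρbar : ResidualGaloisRep (IsLocalRing.ResidueField 𝒪))
    (𝒟 : ∀ ⦃A : Type⦄ [CommRing A] [IsLocalRing A] [Algebra 𝒪 A], GaloisRepAdic A → Prop)
    (habs : ρbar.IsAbsolutelyIrreducible)
    (h𝒟 : GaloisRep.IsDeformationCondition 𝒪 𝒟)
    (hbar : 𝒟 (GaloisRepAdic.ofResidualGaloisRep ρbar))
    (hfin : GaloisRep.TangentFinite 𝒪 ρbar 𝒟) :
    Nonempty (GaloisRep.DeformationRingData 𝒪 ρbar 𝒟) := by
  -- matrix form of `ρbar`
  let bbar : Module.Basis (Fin 2) (ResidueField 𝒪) ρbar.V :=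
    Module.finBasisOfFinrankEq _ _ ρbar.finrank_eq
  obtain ⟨x, y, hx, hy⟩ := exists_xy ρbar habs bbar
  set rbar := rbarOf ρbar bbar with hrbar
  have hnbar : Normalized x y rbar := normalized_of_eq hx hy
  have hcbar : MatCont rbar := matCont_rbarOf ρbar bbar
  have hDbar : 𝒟 (ofMat rbar hcbar) :=
    h𝒟.of_isEquiv isTest_residueField (isEquiv_ofResidual ρbar bbar) hbar
  -- tangent generators
  have hPhi := finite_Phi ρbar bbar x y hx hy 𝒟 hfin
  obtain ⟨e, t, ht, htan⟩ := exists_tangent_generators (hnbar := hnbar) hPhi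
  -- the pro-representing ring
  obtain ⟨R, _, _, _, _, _, hlocR, fR, hsurjR, hgoodR, -, hunivR⟩ :=
    exists_prorep_of_good (mU rbar hnbar) (exists_sub_mem_mU rbar hnbar)
      (algebraMap_mem_mU_iff rbar hnbar) (Good rbar hnbar 𝒟) (fun K h => h.le)
      (fun K h => h.pow_le) (fun K K' h => h.mono h𝒟) (fun K K' h h' => h.inf h𝒟 h')
      (good_mU h𝒟 hcbar hDbar) e t ht (fun K h => h.gen h𝒟 ht htan)
  have hLR := isLift_of_good_comap h𝒟 hlocR hsurjR fR hgoodR
  refine ⟨{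
    R := R
    residue_surjective := hsurjR
    absIrr := habs
    ρ := ofMat _ hLR.cont
    isOfType := hLR.type
    residual_isEquiv := residual_ofMat_isEquiv ρbar bbar hLR.cont hLR.res
    universal := ?_ }⟩
  intro A _ _ _ _ _ hlocA hsurjA ρA hDA hresA
  have := henselianLocalRing_of_complete A
  obtain ⟨r, hr, hequiv, hres⟩ := exists_ofMat_isEquiv_of_residual ρbar bbar ρA hresA
  obtain ⟨r', M, hM, hconj, hc', hres', hn'⟩ := normal_exists rbar x y hx hy hr hres
  have hequiv' : ρA.IsEquiv (ofMat r' hc') :=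
    isEquiv_trans hequiv (ofMat_isEquiv_of_conj hr hc' M hM hconj)
  have hL' : IsLift rbar x y 𝒟 r' :=
    ⟨hc', hres', hn', D_of_isEquiv_complete h𝒟 hlocA hsurjA hequiv' hDA⟩
  obtain ⟨φ, hφ, huniq⟩ := hunivR A hsurjA (liftU r' hn')
    (fun n => good_comap_liftU h𝒟 hlocA hsurjA hL' n)
  have hcompRep : ∀ ψ : R →ₐ[𝒪] A, mapRep (ψ : R →+* A) (mapRep (fR : U x y →+* R) (rU x y)) =
      mapRep ((ψ.comp fR : U x y →ₐ[𝒪] A) : U x y →+* A) (rU x y) := fun ψ => rfl
  refine ⟨φ, ⟨isLocalHom_of_algHom hlocA hsurjA φ, ?_⟩, ?_⟩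
  · refine isEquiv_trans (baseChangeAlong_ofMat hLR.cont _ _) (isEquiv_symm ?_)
    have h1 : mapRep (φ : R →+* A) (mapRep (fR : U x y →+* R) (rU x y)) = r' := by
      rw [hcompRep, hφ, mapRep_liftU]
    have h2 : ∀ (s : Gal →* M2 A) (hs : MatCont s), s = r' → ρA.IsEquiv (ofMat s hs) := by
      rintro s hs rfl
      exact hequiv'
    exact h2 _ _ h1
  · rintro ψ ⟨hψ, hψe⟩
    apply huniq
    have h1 : (ofMat _ (hLR.cont.map (ψ : R →+* A) hψ)).IsEquiv (ofMat r' hc') :=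
      isEquiv_trans (isEquiv_symm (baseChangeAlong_ofMat hLR.cont _ hψ))
        (isEquiv_trans hψe hequiv')
    obtain ⟨N, hN, hNconj⟩ := exists_conj_of_isEquiv _ _ h1
    have h2 := normal_unique rbar x y hx hy (hLR.res.map ψ hψ) hres' (hLR.norm.map ψ) hn' N hN hNconj
    apply U_algHom_ext
    intro σ i j
    have h3 := congrFun (congrFun (congrArg (fun s : Gal →* M2 A => s σ) h2) i) j
    rw [liftU_rU]
    exact h3

end Fermat.Agent.S53
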