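import Fermat.Statements.S57
import Fermat.Agent.S57.FreeOfFree

set_option autoImplicit false
open Algebra Algebra.PatchingLevel

namespace Fermat.Agent.S57

/-- An `𝒪`-algebra endomorphism of a power series ring over a local ring maps non-units to
non-units. -/
lemma not_isUnit_map_of_not_isUnit {𝒪 : Type} [CommRing 𝒪] [IsLocalRing 𝒪] {r : ℕ}
    (φ : MvPowerSeries (Fin r) 𝒪 →ₐ[𝒪] MvPowerSeries (Fin r) 𝒪) (x : MvPowerSeries (Fin r) 𝒪)
    (hx : ¬ IsUnit x) : ¬ IsUnit (φ x) := by
  intro hu
  set u : 𝒪 := MvPowerSeries.constantCoeff (φ x) with hu_def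
  have hu' : IsUnit u := MvPowerSeries.isUnit_iff_constantCoeff.mp hu
  have hx0 : ¬ IsUnit (MvPowerSeries.constantCoeff x) :=
    fun h => hx (MvPowerSeries.isUnit_iff_constantCoeff.mpr h)
  have h1 : IsUnit (x - algebraMap 𝒪 (MvPowerSeries (Fin r) 𝒪) u) := by
    rw [MvPowerSeries.isUnit_iff_constantCoeff, map_sub]
    have h2 : MvPowerSeries.constantCoeff (algebraMap 𝒪 (MvPowerSeries (Fin r) 𝒪) u) = u := by
      simp [MvPowerSeries.algebraMap_apply]
    rw [h2]
    by_contra hcon
    have h4 : MvPowerSeries.constantCoeff x + -(MvPowerSeries.constantCoeff x - u) ∈ nonunits 𝒪 :=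
      IsLocalRing.nonunits_add hx0 (by rwa [mem_nonunits_iff, IsUnit.neg_iff])
    have h5 : MvPowerSeries.constantCoeff x + -(MvPowerSeries.constantCoeff x - u) = u := by ring
    rw [h5] at h4
    exact h4 hu'
  have h3 : IsUnit (φ (x - algebraMap 𝒪 (MvPowerSeries (Fin r) 𝒪) u)) := h1.map φ
  rw [map_sub, AlgHom.commutes, MvPowerSeries.isUnit_iff_constantCoeff, map_sub] at h3
  have h2 : MvPowerSeries.constantCoeff (algebraMap 𝒪 (MvPowerSeries (Fin r) 𝒪) u) = u := by
    simp [MvPowerSeries.algebraMap_apply]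
  rw [h2, ← hu_def, sub_self] at h3
  exact not_isUnit_zero h3

lemma repr_mem_of_mem_smul_top {T N ι : Type} [CommRing T] [AddCommGroup N] [Module T N]
    (B : Module.Basis ι T N) (I : Ideal T) {x : N} (hx : x ∈ I • (⊤ : Submodule T N)) (j : ι) :
    B.repr x j ∈ I := by
  refine Submodule.smul_induction_on hx ?_ ?_
  · intro a ha y _
    simpa using I.mul_mem_right _ ha
  · intro y z hy hz
    simpa using I.add_mem hy hz

theorem result
    {𝒪 : Type} [CommRing 𝒪] [IsDomain 𝒪] [IsDiscreteValuationRing 𝒪]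
    {r : ℕ} {R : Type} [CommRing R] [Algebra 𝒪 R]
    {M : Type} [AddCommGroup M] [Module R M] [Nontrivial M]
    (L : Algebra.PatchingLevel 𝒪 r R M ⊥) :
    Module.Free R M ∧ Module.annihilator R M = ⊥ ∧
      RingHom.ker L.ψ = Ideal.span (Set.range fun i : Fin r => L.φ (MvPowerSeries.X i)) := by
  have hN : Nontrivial L.N := by
    obtain ⟨m, hm⟩ := exists_ne (0 : M)
    obtain ⟨x, rfl⟩ := L.π_surjective m
    exact ⟨x, 0, fun h => hm (by rw [h, map_zero])⟩
  have hfree : Module.Free (MvPowerSeries (Fin r) 𝒪) L.N :=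
    free_of_semilinear_free (L.φ : MvPowerSeries (Fin r) 𝒪 →+* MvPowerSeries (Fin r) 𝒪) L.b
      L.b_span (fun c hc i => by simpa using (L.b_rel c).mp hc i) (r + 1)
      (hasRegPar_mvPowerSeries 𝒪 r) (hasRegPar_mvPowerSeries 𝒪 r)
      (not_isUnit_map_of_not_isUnit L.φ)
  set I : Ideal (MvPowerSeries (Fin r) 𝒪) :=
    Ideal.span (Set.range fun i : Fin r => L.φ (MvPowerSeries.X i)) with hI
  let B := Module.Free.chooseBasis (MvPowerSeries (Fin r) 𝒪) L.N
  have hker : RingHom.ker L.ψ = I := by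
    apply le_antisymm
    · intro f hf
      obtain ⟨j⟩ : Nonempty (Module.Free.ChooseBasisIndex (MvPowerSeries (Fin r) 𝒪) L.N) :=
        B.index_nonempty
      have h1 : L.π (f • B j) = 0 := by
        rw [L.π_smul, (RingHom.mem_ker).mp hf, zero_smul]
      have h2 := repr_mem_of_mem_smul_top B I ((L.ker_π _).mp h1) j
      simpa using h2
    · rw [hI, Ideal.span_le]
      rintro _ ⟨i, rfl⟩
      exact L.ψ_φ_X i
  have hπsum : ∀ (s : Finset (Module.Free.ChooseBasisIndex (MvPowerSeries (Fin r) 𝒪) L.N))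
      (f : Module.Free.ChooseBasisIndex (MvPowerSeries (Fin r) 𝒪) L.N → MvPowerSeries (Fin r) 𝒪),
      L.π (∑ i ∈ s, f i • B i) = ∑ i ∈ s, L.ψ (f i) • L.π (B i) := by
    intro s f
    rw [map_sum]
    exact Finset.sum_congr rfl fun i _ => L.π_smul _ _
  have hfreeM : Module.Free R M := by
    refine Module.Free.of_basis (Module.Basis.mk (v := fun i => L.π (B i)) ?_ ?_)
    · rw [linearIndependent_iff']
      intro s g hg i hi
      choose f hf using fun i => L.ψ_surjective (g i)
      have h1 : L.π (∑ i ∈ s, f i • B i) = 0 := by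
        rw [hπsum, ← hg]
        exact Finset.sum_congr rfl fun i _ => by rw [hf]
      have h2 := repr_mem_of_mem_smul_top B I ((L.ker_π _).mp h1) i
      have h3 : B.repr (∑ i ∈ s, f i • B i) i = f i := by
        classical
        simp [Finsupp.single_apply, hi]
      rw [h3, ← hker] at h2
      rw [← hf i]
      exact h2
    · intro m _
      obtain ⟨x, rfl⟩ := L.π_surjective m
      have hx : x = ∑ i ∈ (B.repr x).support, B.repr x i • B i := by
        conv_lhs => rw [← B.linearCombination_repr x, Finsupp.linearCombination_apply]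
        rfl
      rw [hx, hπsum]
      exact Submodule.sum_mem _ fun i _ =>
        Submodule.smul_mem _ _ (Submodule.subset_span ⟨i, rfl⟩)
  refine ⟨hfreeM, ?_, hker⟩
  exact Module.annihilator_eq_bot.mpr inferInstance

end Fermat.Agent.S57
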